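/-
S56, wall W4, seat TP (helper44), helper file 1: the determinant of `ρbar` from the determinant of a
deformation to `k[ε]`, and the action of inertia on the line `k · w 0` of a `FlTri` basis.
-/
import Fermat.Agent.S56.W4.Defs
import Fermat.Agent.S56.W1.Cocycle.DualTensor
import Fermat.Agent.S56.W3.SO.Tangent.T1

set_option autoImplicit false

namespace Fermat.Agent.S56.W4

open Fermat.Agent.F4 ExtCitation Fermat.Agent.S56.SO
open scoped TensorProduct

variable {k : Type} [Field k]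

/-- `det ρ σ = a` in `k[ε]` for a deformation with cyclotomic determinant. -/
theorem tp_det_def (p : ℕ) [Fact p.Prime] (hpk : (p : k) = 0)
    (ρ : GaloisRepAdic (DualNumber k)) (hdet : ρ.DetIsCyclotomic p) (σ : GQ) (a : ℕ)
    (ha : ∀ μ : AlgebraicClosure ℚ, μ ^ p ^ 1 = 1 → σ μ = μ ^ a) :
    LinearMap.det (ρ.ρ σ) = (a : DualNumber k) := by
  have h1 := hdet.2 1 σ a ha
  rw [soT1_natCast_eq_zero p hpk, Ideal.span_singleton_zero, Ideal.mem_bot, sub_eq_zero] at h1
  exact h1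

/-- `det ρbar σ = a` from the deformation. -/
theorem tp_det_resid (p : ℕ) [Fact p.Prime] (hpk : (p : k) = 0)
    (ρbar : ResidualGaloisRep k) (c : GQ → ad0 ρbar) (ρ : GaloisRepAdic (DualNumber k))
    (hdef : IsDefOf ρbar c ρ) (hdet : ρ.DetIsCyclotomic p) (σ : GQ) (a : ℕ)
    (ha : ∀ μ : AlgebraicClosure ℚ, μ ^ p ^ 1 = 1 → σ μ = μ ^ a) :
    LinearMap.det (ρbar.ρ σ) = (a : k) := by
  obtain ⟨e, he⟩ := hdef
  have h1 := tp_det_def p hpk ρ hdet σ a ha
  have h2 : ρ.ρ σ = (e : (DualNumber k ⊗[k] ρbar.V) →ₗ[DualNumber k] ρ.V) ∘ₗ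
      defEnd ρbar (c σ : ↥(ad0Sub ρbar)).1 σ ∘ₗ
      (e.symm : ρ.V →ₗ[DualNumber k] (DualNumber k ⊗[k] ρbar.V)) := by
    apply LinearMap.ext
    intro v
    show ρ.ρ σ v = e (defEnd ρbar (c σ : ↥(ad0Sub ρbar)).1 σ (e.symm v))
    rw [← he, e.apply_symm_apply]
  rw [h2, LinearMap.det_conj] at h1
  have htr : LinearMap.trace k ρbar.V (c σ : ↥(ad0Sub ρbar)).1 = 0 :=
    LinearMap.mem_ker.mp (c σ : ↥(ad0Sub ρbar)).2
  have h3 := w1c_det ρbar.finrank_eq (c σ : ↥(ad0Sub ρbar)).1 (ρbar.ρ σ)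
  rw [htr, map_zero, mul_zero, add_zero, one_mul] at h3
  have h4 : LinearMap.det (defEnd ρbar (c σ : ↥(ad0Sub ρbar)).1 σ) =
      algebraMap k (DualNumber k) (LinearMap.det (ρbar.ρ σ)) := h3
  rw [h4] at h1
  have h5 : ((a : ℕ) : DualNumber k) = algebraMap k (DualNumber k) (a : k) := by
    rw [map_natCast]
  rw [h5] at h1
  exact (algebraMap k (DualNumber k)).injective h1

/-- The determinant of an endomorphism of the plane in terms of its entries. -/
theorem tp_det_entries {V : Type} [AddCommGroup V] [Module k V] (w : Module.Basis (Fin 2) k V)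
    (f : Module.End k V) :
    LinearMap.det f = w.repr (f (w 0)) 0 * w.repr (f (w 1)) 1
      - w.repr (f (w 1)) 0 * w.repr (f (w 0)) 1 := by
  rw [← LinearMap.det_toMatrix w, Matrix.det_fin_two, LinearMap.toMatrix_apply,
    LinearMap.toMatrix_apply, LinearMap.toMatrix_apply, LinearMap.toMatrix_apply]

/-- Inertia acts on the line `k · w 0` through the cyclotomic character. -/
theorem tp_inertia_line (p : ℕ) [Fact p.Prime] (hpk : (p : k) = 0)
    (ρbar : ResidualGaloisRep k) (P : ValuationSubring (AlgebraicClosure ℚ))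
    (w : Module.Basis (Fin 2) k ρbar.V) (hw : FlTri ρbar.ρ P w)
    (c : GQ → ad0 ρbar) (ρ : GaloisRepAdic (DualNumber k))
    (hdef : IsDefOf ρbar c ρ) (hdet : ρ.DetIsCyclotomic p) {σ : GQ}
    (hσ : σ ∈ P.inertiaSubgroupIn ℚ) (a : ℕ)
    (ha : ∀ μ : AlgebraicClosure ℚ, μ ^ p ^ 1 = 1 → σ μ = μ ^ a) :
    ρbar.ρ σ (w 0) = (a : k) • w 0 := by
  have hD := Fermat.Agent.S59.SO.inertia_le_decomposition hσ
  have h1 := tp_det_resid p hpk ρbar c ρ hdef hdet σ a ha
  rw [tp_det_entries w, hw.dec σ hD, hw.inert σ hσ, mul_one, mul_zero, sub_zero] at h1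
  have h2 := Fermat.Agent.S59.SO.eq_smul_of_repr_one w (hw.dec σ hD)
  rw [h1] at h2
  exact h2

end Fermat.Agent.S56.W4
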