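/-
S56, wall W4, seat TP (helper44), helper file 2: the line of a flat deformation.

`U = coinvKer P ρ` is a free direct summand of rank one (FFL-FREE), generated by `e ℓ''` with
`redFst ℓ'' = w 0`.
-/
import Fermat.Agent.S56.W4.Normal.Det
import Fermat.Agent.S56.W4.Tri
import Fermat.Agent.Lib.FFL.FreeFinal

set_option autoImplicit false

namespace Fermat.Agent.S56.W4

open Fermat.Agent.F4 ExtCitation Fermat.Agent.S56.SO Fermat.Agent.FFL IsLocalRing
open scoped TensorProduct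

variable {k : Type} [Field k]

/-- elements of the maximal ideal of `k[ε]` have constant term `0`. -/
theorem tp_fst_eq_zero_of_mem {t : DualNumber k} (ht : t ∈ maximalIdeal (DualNumber k)) :
    TrivSqZeroExt.fst t = 0 := by
  by_contra h
  have h1 : IsUnit t := by
    rw [TrivSqZeroExt.isUnit_iff_isUnit_fst]
    exact isUnit_iff_ne_zero.mpr h
  exact (IsLocalRing.mem_maximalIdeal t).mp ht h1

variable {V : Type} [AddCommGroup V] [Module k V] {M : Type} [AddCommGroup M]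
  [Module (DualNumber k) M]

/-- elements of `𝔪 M` have constant part `0`. -/
theorem tp_redFst_eq_zero_of_mem (e : (DualNumber k ⊗[k] V) ≃ₗ[DualNumber k] M) {v : M}
    (hv : v ∈ maximalIdeal (DualNumber k) • (⊤ : Submodule (DualNumber k) M)) :
    redFst (e.symm v) = 0 := by
  refine Submodule.smul_induction_on hv ?_ ?_
  · intro t ht x _
    rw [map_smul, redFst_smul, tp_fst_eq_zero_of_mem ht, zero_smul]
  · intro x y hx hy
    rw [map_add, map_add, hx, hy, add_zero]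

section Main

variable [Finite k]

/-- **The line of a flat deformation.** -/
theorem tp_core (p : ℕ) [Fact p.Prime] (hp2 : p ≠ 2) (hpk : (p : k) = 0)
    (ρbar : ResidualGaloisRep k)
    (P : ValuationSubring (AlgebraicClosure ℚ)) (hP : P.LiesOverPrime p)
    (w : Module.Basis (Fin 2) k ρbar.V) (hw : FlTri ρbar.ρ P w)
    (c : GQ → ad0 ρbar) (ρ : GaloisRepAdic (DualNumber k))
    (e : (DualNumber k ⊗[k] ρbar.V) ≃ₗ[DualNumber k] ρ.V)
    (he : ∀ (σ : GQ) (x : DualNumber k ⊗[k] ρbar.V),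
      ρ.ρ σ (e x) = e (defEnd ρbar (c σ : ↥(ad0Sub ρbar)).1 σ x))
    (hdet : ρ.DetIsCyclotomic p) (hfl : ρ.IsFlatAt p) :
    ∃ ℓ'' : DualNumber k ⊗[k] ρbar.V, redFst ℓ'' = w 0 ∧ e ℓ'' ∈ coinvKer P ρ ∧
      ∀ y : DualNumber k ⊗[k] ρbar.V, e y ∈ coinvKer P ρ → ∃ t : DualNumber k, y = t • ℓ'' := by
  classical
  have hp : p.Prime := Fact.out
  have hchar : CharP k p := (CharP.charP_iff_prime_eq_zero hp).mpr hpk
  have hfinA : Finite (DualNumber k) := inferInstanceAs (Finite (k × k))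
  have hdef : IsDefOf ρbar c ρ := ⟨e, he⟩
  -- the constant part of the elements of `U` is on the line
  have hU1 : ∀ v ∈ coinvKer P ρ, w.repr (redFst (e.symm v)) 1 = 0 := by
    intro v hv
    refine Submodule.span_induction (p := fun v _ => w.repr (redFst (e.symm v)) 1 = 0)
      ?_ ?_ ?_ ?_ hv
    · rintro y ⟨σ, hσ, v, rfl⟩
      obtain ⟨x, rfl⟩ := e.surjective v
      rw [he, ← map_sub, e.symm_apply_apply, map_sub, redFst_defEnd]
      exact coinvBar_le_of_flTri hw _ (sub_mem_coinvBar P ρbar hσ (redFst x))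
    · rw [map_zero, map_zero, map_zero]
      rfl
    · intro y z _ _ hy hz
      rw [map_add, map_add, map_add, Finsupp.add_apply, hy, hz, add_zero]
    · intro t y _ hy
      rw [map_smul, redFst_smul, map_smul, Finsupp.smul_apply, hy, smul_zero]
  -- `h1`
  have h1 : coinvKer P ρ ⊔ maximalIdeal (DualNumber k) • (⊤ : Submodule (DualNumber k) ρ.V)
      ≠ ⊤ := by
    intro htop
    have hmem : e ((1 : DualNumber k) ⊗ₜ[k] w 1) ∈
        coinvKer P ρ ⊔ maximalIdeal (DualNumber k) • (⊤ : Submodule (DualNumber k) ρ.V) := by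
      rw [htop]
      exact Submodule.mem_top
    obtain ⟨u, hu, v, hv, huv⟩ := Submodule.mem_sup.mp hmem
    have h3 := congrArg (fun x => w.repr (redFst (e.symm x)) 1) huv
    simp only [map_add, Finsupp.add_apply, e.symm_apply_apply, redFst_one_tmul] at h3
    rw [hU1 u hu, tp_redFst_eq_zero_of_mem e hv, map_zero, Finsupp.zero_apply, add_zero,
      Fermat.Agent.S59.SO.repr_self_one_one] at h3
    exact zero_ne_one h3
  -- the element `σ₀` of inertia
  obtain ⟨σ₀, hσ₀, hne⟩ := Fermat.Agent.MultRed.exists_inertia_cycExp_ne_one p hp2 P hP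
  obtain ⟨a₀, ha₀⟩ := Fermat.Agent.S59.SOArith.exists_cycExp p σ₀ 1
  have hu : (a₀ : k) - 1 ≠ 0 := by
    intro h
    apply hne a₀ ha₀
    have h' : (((a₀ : ℤ) - 1 : ℤ) : k) = 0 := by push_cast; exact h
    exact (CharP.intCast_eq_zero_iff k p _).mp h'
  have hρ0 : ρbar.ρ σ₀ (w 0) = (a₀ : k) • w 0 :=
    tp_inertia_line p hpk ρbar P w hw c ρ hdef hdet hσ₀ a₀ ha₀
  set ℓ' : DualNumber k ⊗[k] ρbar.V :=
    defEnd ρbar (c σ₀ : ↥(ad0Sub ρbar)).1 σ₀ ((1 : DualNumber k) ⊗ₜ[k] w 0)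
      - (1 : DualNumber k) ⊗ₜ[k] w 0 with hℓ'
  have hℓU : e ℓ' ∈ coinvKer P ρ := by
    have h3 := sub_mem_coinvKer P ρ hσ₀ (e ((1 : DualNumber k) ⊗ₜ[k] w 0))
    rw [he] at h3
    rw [hℓ', map_sub]
    exact h3
  have hℓ0 : redFst ℓ' = ((a₀ : k) - 1) • w 0 := by
    rw [hℓ', map_sub, redFst_defEnd, redFst_one_tmul, hρ0, sub_smul, one_smul]
  -- `h2`
  have h2 : ¬ coinvKer P ρ ≤
      maximalIdeal (DualNumber k) • (⊤ : Submodule (DualNumber k) ρ.V) := by
    intro hle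
    have h3 := tp_redFst_eq_zero_of_mem e (hle hℓU)
    rw [e.symm_apply_apply, hℓ0] at h3
    exact (smul_ne_zero hu (w.ne_zero 0)) h3
  obtain ⟨b, hb⟩ := exists_basis_coinvKer_of_odd hp hp2 hP ρ hfl h1 h2
  -- `ℓ'` generates
  have hℓL : e ℓ' ∈ Submodule.span (DualNumber k) {b 0} := by
    rw [← hb]
    exact hℓU
  obtain ⟨t, ht⟩ := Submodule.mem_span_singleton.mp hℓL
  have ht0 : TrivSqZeroExt.fst t ≠ 0 := by
    intro h0
    have h3 : redFst ℓ' = 0 := by
      have h4 : ℓ' = t • e.symm (b 0) := by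
        rw [← map_smul, ht, e.symm_apply_apply]
      rw [h4, redFst_smul, h0, zero_smul]
    rw [hℓ0] at h3
    exact (smul_ne_zero hu (w.ne_zero 0)) h3
  have htu : IsUnit t := by
    rw [TrivSqZeroExt.isUnit_iff_isUnit_fst]
    exact isUnit_iff_ne_zero.mpr ht0
  obtain ⟨t', ht'⟩ := htu.exists_left_inv
  have hgen : ∀ y : DualNumber k ⊗[k] ρbar.V, e y ∈ coinvKer P ρ →
      ∃ s : DualNumber k, y = s • ℓ' := by
    intro y hy
    rw [hb] at hy
    obtain ⟨s, hs⟩ := Submodule.mem_span_singleton.mp hy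
    refine ⟨s * t', ?_⟩
    apply e.injective
    rw [map_smul, ← ht, smul_smul, mul_assoc, ht', mul_one, hs]
  -- the normalised generator
  refine ⟨(TrivSqZeroExt.inl ((a₀ : k) - 1)⁻¹ : DualNumber k) • ℓ', ?_, ?_, ?_⟩
  · rw [redFst_smul, TrivSqZeroExt.fst_inl, hℓ0, smul_smul, inv_mul_cancel₀ hu, one_smul]
  · rw [map_smul]
    exact Submodule.smul_mem _ _ hℓU
  · intro y hy
    obtain ⟨s, hs⟩ := hgen y hy
    refine ⟨s * (TrivSqZeroExt.inl ((a₀ : k) - 1) : DualNumber k), ?_⟩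
    rw [smul_smul, mul_assoc, ← TrivSqZeroExt.inl_mul, mul_inv_cancel₀ hu, TrivSqZeroExt.inl_one,
      mul_one]
    exact hs

end Main

end Fermat.Agent.S56.W4
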