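/-
S56, wall W4, seat TP (helper44), helper file 3: the linear algebra of the normal form
(as W3c (T1), `S56/W3/SO/Tangent/T1.lean`).
-/
import Fermat.Agent.S56.W4.Normal.Core

set_option autoImplicit false

namespace Fermat.Agent.S56.W4

open Fermat.Agent.F4 ExtCitation Fermat.Agent.S56.SO Fermat.Agent.FFL IsLocalRing
open scoped TensorProduct

variable {k : Type} [Field k]

theorem tp_inv_apply (ρbar : ResidualGaloisRep k) (σ : GQ) (v : ρbar.V) :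
    ρbar.ρ σ⁻¹ (ρbar.ρ σ v) = v := by
  have h5 : ρbar.ρ σ⁻¹ * ρbar.ρ σ = 1 := by rw [← map_mul, inv_mul_cancel, map_one]
  exact LinearMap.congr_fun h5 v

/-- the value of the modified cocycle. -/
theorem tp_hval (ρbar : ResidualGaloisRep k) (c : GQ → ad0 ρbar) (σ : GQ)
    (m : ad0 ρbar) (m₁ : Module.End k ρbar.V) (τ : k)
    (hm : (m : ↥(ad0Sub ρbar)).1 = m₁ - τ • (1 : Module.End k ρbar.V)) (v : ρbar.V) :
    ((c σ + ((ad0 ρbar).ρ σ m - m) : ad0 ρbar) : ↥(ad0Sub ρbar)).1 (ρbar.ρ σ v) =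
      (c σ : ↥(ad0Sub ρbar)).1 (ρbar.ρ σ v) + ρbar.ρ σ (m₁ v) - m₁ (ρbar.ρ σ v) := by
  have h5 : ((c σ + ((ad0 ρbar).ρ σ m - m) : ad0 ρbar) : ↥(ad0Sub ρbar)).1 =
      (c σ : ↥(ad0Sub ρbar)).1 + (ρbar.ρ σ * ((m : ↥(ad0Sub ρbar)).1
          * ρbar.ρ σ⁻¹) - (m : ↥(ad0Sub ρbar)).1) := rfl
  rw [h5, hm]
  simp only [LinearMap.add_apply, LinearMap.sub_apply, Module.End.mul_apply,
    LinearMap.smul_apply, Module.End.one_apply, tp_inv_apply, map_sub, map_smul]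
  abel

/-- the decomposition group: the modified cocycle is triangular. -/
theorem tp_dec (ρbar : ResidualGaloisRep k) (w : Module.Basis (Fin 2) k ρbar.V)
    (c : GQ → ad0 ρbar) (σ : GQ)
    (ℓ'' : DualNumber k ⊗[k] ρbar.V) (hℓ0 : redFst ℓ'' = w 0)
    (x : DualNumber k) (hx : defEnd ρbar (c σ : ↥(ad0Sub ρbar)).1 σ ℓ'' = x • ℓ'')
    (m : ad0 ρbar) (m₁ : Module.End k ρbar.V) (τ : k)
    (hm : (m : ↥(ad0Sub ρbar)).1 = m₁ - τ • (1 : Module.End k ρbar.V))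
    (hm10 : m₁ (w 0) = redSnd ℓ'') :
    ρbar.ρ σ (w 0) = TrivSqZeroExt.fst x • w 0 ∧ TrivSqZeroExt.fst x ≠ 0 ∧
    ((c σ + ((ad0 ρbar).ρ σ m - m) : ad0 ρbar) : ↥(ad0Sub ρbar)).1 (w 0)
      = (TrivSqZeroExt.snd x / TrivSqZeroExt.fst x) • w 0 := by
  have hr0 : ρbar.ρ σ (w 0) = TrivSqZeroExt.fst x • w 0 := by
    have f0 := congrArg redFst hx
    rw [redFst_defEnd, redFst_smul, hℓ0] at f0
    exact f0
  have f1 : ρbar.ρ σ (redSnd ℓ'') + (c σ : ↥(ad0Sub ρbar)).1 (ρbar.ρ σ (w 0))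
      = TrivSqZeroExt.fst x • redSnd ℓ'' + TrivSqZeroExt.snd x • w 0 := by
    have f1 := congrArg redSnd hx
    rw [redSnd_defEnd, redSnd_smul, hℓ0] at f1
    exact f1
  have hx0 : TrivSqZeroExt.fst x ≠ 0 := by
    intro h0
    rw [h0, zero_smul] at hr0
    have h5 := tp_inv_apply ρbar σ (w 0)
    rw [hr0, map_zero] at h5
    exact w.ne_zero 0 h5.symm
  refine ⟨hr0, hx0, ?_⟩
  have hn0 : ((c σ + ((ad0 ρbar).ρ σ m - m) : ad0 ρbar) : ↥(ad0Sub ρbar)).1 (ρbar.ρ σ (w 0))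
      = TrivSqZeroExt.snd x • w 0 := by
    have e3 : m₁ (ρbar.ρ σ (w 0)) = TrivSqZeroExt.fst x • redSnd ℓ'' := by
      rw [hr0, map_smul, hm10]
    have e4 : (c σ : ↥(ad0Sub ρbar)).1 (ρbar.ρ σ (w 0)) + ρbar.ρ σ (redSnd ℓ'')
        = TrivSqZeroExt.fst x • redSnd ℓ'' + TrivSqZeroExt.snd x • w 0 := by
      rw [add_comm]; exact f1
    rw [tp_hval ρbar c σ m m₁ τ hm, hm10, e3, e4]
    abel
  rw [hr0, map_smul] at hn0
  rw [div_eq_inv_mul, mul_smul, ← hn0, smul_smul, inv_mul_cancel₀ hx0, one_smul]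

/-- inertia: the second column of the modified cocycle. -/
theorem tp_inert (ρbar : ResidualGaloisRep k) (w : Module.Basis (Fin 2) k ρbar.V)
    (c : GQ → ad0 ρbar) (σ : GQ)
    (ℓ'' : DualNumber k ⊗[k] ρbar.V) (hℓ0 : redFst ℓ'' = w 0)
    (t : DualNumber k)
    (ht : defEnd ρbar (c σ : ↥(ad0Sub ρbar)).1 σ ((1 : DualNumber k) ⊗ₜ[k] w 1)
      - (1 : DualNumber k) ⊗ₜ[k] w 1 = t • ℓ'')
    (m : ad0 ρbar) (m₁ : Module.End k ρbar.V) (τ : k)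
    (hm : (m : ↥(ad0Sub ρbar)).1 = m₁ - τ • (1 : Module.End k ρbar.V))
    (hm10 : m₁ (w 0) = redSnd ℓ'') (hm11 : m₁ (w 1) = 0) :
    ρbar.ρ σ (w 1) = w 1 + TrivSqZeroExt.fst t • w 0 ∧
    ((c σ + ((ad0 ρbar).ρ σ m - m) : ad0 ρbar) : ↥(ad0Sub ρbar)).1 (w 1)
      = TrivSqZeroExt.snd t • w 0 - TrivSqZeroExt.fst t •
        ((c σ + ((ad0 ρbar).ρ σ m - m) : ad0 ρbar) : ↥(ad0Sub ρbar)).1 (w 0) := by
  have k0 := congrArg redFst ht
  have k1 := congrArg redSnd ht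
  rw [map_sub, redFst_defEnd, redFst_smul, redFst_one_tmul, hℓ0] at k0
  rw [map_sub, redSnd_defEnd, redSnd_smul, redSnd_one_tmul, redFst_one_tmul, map_zero, zero_add,
    sub_zero, hℓ0] at k1
  have hr1 : ρbar.ρ σ (w 1) = w 1 + TrivSqZeroExt.fst t • w 0 := by
    rw [← k0]; abel
  refine ⟨hr1, ?_⟩
  have hn1 : ((c σ + ((ad0 ρbar).ρ σ m - m) : ad0 ρbar) : ↥(ad0Sub ρbar)).1 (ρbar.ρ σ (w 1))
      = TrivSqZeroExt.snd t • w 0 := by
    have e3 : m₁ (ρbar.ρ σ (w 1)) = TrivSqZeroExt.fst t • redSnd ℓ'' := by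
      rw [hr1, map_add, map_smul, hm10, hm11, zero_add]
    rw [tp_hval ρbar c σ m m₁ τ hm, hm11, map_zero, add_zero, e3, k1]
    abel
  rw [hr1, map_add, map_smul] at hn1
  rw [← hn1]
  abel

end Fermat.Agent.S56.W4
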