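/-
S56, wall W4, seat TP (helper44), helper file 4: application of FFL-PEU (`PeuFlat`) to the line of a
flat deformation.
-/
import Fermat.Agent.S56.W4.Normal.Step

set_option autoImplicit false

namespace Fermat.Agent.S56.W4

open Fermat.Agent.F4 ExtCitation Fermat.Agent.S56.SO Fermat.Agent.FFL IsLocalRing
open scoped TensorProduct

variable {k : Type} [Field k]

theorem tp_zeta_pow_val_nsmul {p : ℕ} [Fact p.Prime] {ζ : AlgebraicClosure ℚ} (hζ : ζ ^ p = 1)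
    (a : ℕ) (z : ZMod p) : ζ ^ (a • z).val = (ζ ^ z.val) ^ a := by
  induction a with
  | zero => rw [zero_smul, ZMod.val_zero, pow_zero, pow_zero]
  | succ a ih => rw [succ_nsmul, zeta_pow_val_add hζ, ih, pow_succ]

/-- **PEU for the line.**  `Λ` is an additive coordinate on `k[ε] ⊗ V` which on the line
`k[ε] · ℓ''` is `s • ℓ'' ↦ lam s`. -/
theorem tp_peu_apply [Finite k] (p : ℕ) [Fact p.Prime]
    (P : ValuationSubring (AlgebraicClosure ℚ))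
    (ζ : AlgebraicClosure ℚ) (hζ : ζ ^ p = 1) (hpeu : PeuFlat p P)
    (ρbar : ResidualGaloisRep k) (w : Module.Basis (Fin 2) k ρbar.V)
    (c : GQ → ad0 ρbar) (ρ : GaloisRepAdic (DualNumber k))
    (e : (DualNumber k ⊗[k] ρbar.V) ≃ₗ[DualNumber k] ρ.V)
    (he : ∀ (σ : GQ) (x : DualNumber k ⊗[k] ρbar.V),
      ρ.ρ σ (e x) = e (defEnd ρbar (c σ : ↥(ad0Sub ρbar)).1 σ x))
    (hfl : ρ.IsFlatAt p)
    (ℓ'' : DualNumber k ⊗[k] ρbar.V)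
    (hgen : ∀ y : DualNumber k ⊗[k] ρbar.V, e y ∈ coinvKer P ρ → ∃ t : DualNumber k, y = t • ℓ'')
    (Λ : (DualNumber k ⊗[k] ρbar.V) → k) (lam : DualNumber k → k)
    (hΛadd : ∀ x y, Λ (x + y) = Λ x + Λ y)
    (hΛ : ∀ s : DualNumber k, Λ (s • ℓ'') = lam s)
    (hlam : ∀ (s : DualNumber k) (n : ℕ), lam (s * (n : DualNumber k)) = n • lam s)
    (hcyc : ∀ σ ∈ P.inertiaSubgroupIn ℚ, ∃ a : ℕ, σ ζ = ζ ^ a ∧
      defEnd ρbar (c σ : ↥(ad0Sub ρbar)).1 σ ℓ'' = (a : DualNumber k) • ℓ'')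
    (g : GQ → k)
    (hg : ∀ σ ∈ P.inertiaSubgroupIn ℚ, ∀ t : DualNumber k,
      defEnd ρbar (c σ : ↥(ad0Sub ρbar)).1 σ ((1 : DualNumber k) ⊗ₜ[k] w 1)
        - (1 : DualNumber k) ⊗ₜ[k] w 1 = t • ℓ'' → g σ = lam t) :
    IsPeu p P ζ g := by
  intro φ
  have hfinA : Finite (DualNumber k) := inferInstanceAs (Finite (k × k))
  have hM := isFlatGaloisModule_of_isFlatAt ρ hfl
  have h := hpeu ρ.V (fun σ v => ρ.ρ σ v) hM (coinvKer P ρ).toAddSubgroup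
    (fun v => ζ ^ (φ (Λ (e.symm v))).val) ?_ ?_ ?_ ?_ (e ((1 : DualNumber k) ⊗ₜ[k] w 1))
  · obtain ⟨a, ha, ha', ha0, h1⟩ := h
    refine ⟨a, ha, ha', ha0, fun σ hσ => ?_⟩
    rw [h1 σ hσ]
    congr 4
    have h2 : e (defEnd ρbar (c σ : ↥(ad0Sub ρbar)).1 σ ((1 : DualNumber k) ⊗ₜ[k] w 1)
        - (1 : DualNumber k) ⊗ₜ[k] w 1) ∈ coinvKer P ρ := by
      rw [map_sub, ← he]
      exact sub_mem_coinvKer P ρ hσ _
    obtain ⟨t, ht⟩ := hgen _ h2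
    have h3 : e.symm (ρ.ρ σ (e ((1 : DualNumber k) ⊗ₜ[k] w 1)) - e ((1 : DualNumber k) ⊗ₜ[k] w 1))
        = t • ℓ'' := by
      rw [he, ← map_sub, e.symm_apply_apply, ht]
    show Λ (e.symm (ρ.ρ σ (e ((1 : DualNumber k) ⊗ₜ[k] w 1))
      - e ((1 : DualNumber k) ⊗ₜ[k] w 1))) = g σ
    rw [h3, hΛ, hg σ hσ t ht]
  · intro σ hσ m
    exact sub_mem_coinvKer P ρ hσ m
  · intro x _ y _
    show ζ ^ (φ (Λ (e.symm (x + y)))).val = ζ ^ (φ (Λ (e.symm x))).val * ζ ^ (φ (Λ (e.symm y))).val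
    rw [map_add, hΛadd, map_add, zeta_pow_val_add hζ]
  · intro x _
    show (ζ ^ (φ (Λ (e.symm x))).val) ^ p = 1
    rw [← pow_mul, mul_comm, pow_mul, hζ, one_pow]
  · intro σ hσ x hx
    show ζ ^ (φ (Λ (e.symm (ρ.ρ σ x)))).val = σ (ζ ^ (φ (Λ (e.symm x))).val)
    obtain ⟨a, haζ, hax⟩ := hcyc σ hσ
    obtain ⟨y, rfl⟩ := e.surjective x
    have hx' : e y ∈ coinvKer P ρ := hx
    obtain ⟨s, rfl⟩ := hgen y hx'
    rw [he, e.symm_apply_apply, e.symm_apply_apply, map_smul, hax, smul_smul, hΛ, hΛ, hlam,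
      map_nsmul, tp_zeta_pow_val_nsmul hζ, map_pow, haζ, ← pow_mul, ← pow_mul, mul_comm]

end Fermat.Agent.S56.W4
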