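/-
S56, wall W4, seat TP (helper44), helper file 5: the normal form package.
-/
import Fermat.Agent.S56.W4.Normal.Peu

set_option autoImplicit false

namespace Fermat.Agent.S56.W4

open Fermat.Agent.F4 ExtCitation Fermat.Agent.S56.SO Fermat.Agent.FFL IsLocalRing
open scoped TensorProduct

variable {k : Type} [Field k]

/-- inertia: the modified cocycle has values in `W0 w`, and the line is acted on by a scalar
of `k`. -/
theorem tp_inert_all (ρbar : ResidualGaloisRep k) (w : Module.Basis (Fin 2) k ρbar.V)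
    (c : GQ → ad0 ρbar) (σ : GQ)
    (ℓ'' : DualNumber k ⊗[k] ρbar.V) (hℓ0 : redFst ℓ'' = w 0)
    (x : DualNumber k) (hx : defEnd ρbar (c σ : ↥(ad0Sub ρbar)).1 σ ℓ'' = x • ℓ'')
    (t : DualNumber k)
    (ht : defEnd ρbar (c σ : ↥(ad0Sub ρbar)).1 σ ((1 : DualNumber k) ⊗ₜ[k] w 1)
      - (1 : DualNumber k) ⊗ₜ[k] w 1 = t • ℓ'')
    (m : ad0 ρbar) (m₁ : Module.End k ρbar.V) (τ : k)
    (hm : (m : ↥(ad0Sub ρbar)).1 = m₁ - τ • (1 : Module.End k ρbar.V))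
    (hm10 : m₁ (w 0) = redSnd ℓ'') (hm11 : m₁ (w 1) = 0) :
    ((c σ + ((ad0 ρbar).ρ σ m - m) : ad0 ρbar) : ↥(ad0Sub ρbar)).1 (w 0) = 0 ∧
    ((c σ + ((ad0 ρbar).ρ σ m - m) : ad0 ρbar) : ↥(ad0Sub ρbar)).1 (w 1)
      = TrivSqZeroExt.snd t • w 0 ∧
    TrivSqZeroExt.snd x = 0 ∧
    ρbar.ρ σ (w 0) = TrivSqZeroExt.fst x • w 0 ∧
    ρbar.ρ σ (w 1) = w 1 + TrivSqZeroExt.fst t • w 0 := by
  obtain ⟨hr0, hx0, hc0⟩ := tp_dec ρbar w c σ ℓ'' hℓ0 x hx m m₁ τ hm hm10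
  obtain ⟨hr1, hc1⟩ := tp_inert ρbar w c σ ℓ'' hℓ0 t ht m m₁ τ hm hm10 hm11
  have htr : LinearMap.trace k ρbar.V
      ((c σ + ((ad0 ρbar).ρ σ m - m) : ad0 ρbar) : ↥(ad0Sub ρbar)).1 = 0 :=
    LinearMap.mem_ker.mp ((c σ + ((ad0 ρbar).ρ σ m - m) : ad0 ρbar) : ↥(ad0Sub ρbar)).2
  rw [soT1_trace_eq w, hc1, hc0] at htr
  simp only [map_smul, map_sub, Finsupp.smul_apply, Finsupp.sub_apply, smul_eq_mul,
    Fermat.Agent.S59.SO.repr_self_zero_zero, Fermat.Agent.S59.SO.repr_self_zero_one,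
    mul_one, mul_zero, sub_zero, add_zero] at htr
  have hs : TrivSqZeroExt.snd x = 0 := by
    rcases div_eq_zero_iff.mp htr with h | h
    · exact h
    · exact absurd h hx0
  rw [htr, zero_smul] at hc0
  rw [hc0, smul_zero, sub_zero] at hc1
  exact ⟨hc0, hc1, hs, hr0, hr1⟩

section Main

variable [Finite k]

/-- **The normal form package.** -/
theorem tp_package (p : ℕ) [Fact p.Prime] (hp2 : p ≠ 2) (hpk : (p : k) = 0)
    (ρbar : ResidualGaloisRep k)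
    (P : ValuationSubring (AlgebraicClosure ℚ)) (hP : P.LiesOverPrime p)
    (w : Module.Basis (Fin 2) k ρbar.V) (hw : FlTri ρbar.ρ P w)
    (c : GQ → ad0 ρbar) (ρ : GaloisRepAdic (DualNumber k))
    (e : (DualNumber k ⊗[k] ρbar.V) ≃ₗ[DualNumber k] ρ.V)
    (he : ∀ (σ : GQ) (x : DualNumber k ⊗[k] ρbar.V),
      ρ.ρ σ (e x) = e (defEnd ρbar (c σ : ↥(ad0Sub ρbar)).1 σ x))
    (hdet : ρ.DetIsCyclotomic p) (hfl : ρ.IsFlatAt p) :
    ∃ (m : ad0 ρbar) (ℓ'' : DualNumber k ⊗[k] ρbar.V)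
      (Λ₁ : (DualNumber k ⊗[k] ρbar.V) →ₗ[k] k),
      redFst ℓ'' = w 0 ∧
      (∀ y : DualNumber k ⊗[k] ρbar.V, e y ∈ coinvKer P ρ → ∃ t : DualNumber k, y = t • ℓ'') ∧
      (∀ s : DualNumber k, Λ₁ (s • ℓ'') = TrivSqZeroExt.snd s) ∧
      (∀ σ ∈ P.decompositionSubgroup ℚ,
        IsTri w ((c σ + ((ad0 ρbar).ρ σ m - m) : ad0 ρbar) : ↥(ad0Sub ρbar)).1) ∧
      (∀ σ ∈ P.inertiaSubgroupIn ℚ,
        ((c σ + ((ad0 ρbar).ρ σ m - m) : ad0 ρbar) : ↥(ad0Sub ρbar)).1 ∈ W0 w) ∧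
      (∀ σ ∈ P.inertiaSubgroupIn ℚ, ∀ a : ℕ,
        (∀ μ : AlgebraicClosure ℚ, μ ^ p ^ 1 = 1 → σ μ = μ ^ a) →
        defEnd ρbar (c σ : ↥(ad0Sub ρbar)).1 σ ℓ'' = (a : DualNumber k) • ℓ'') ∧
      (∀ σ ∈ P.inertiaSubgroupIn ℚ, ∀ t : DualNumber k,
        defEnd ρbar (c σ : ↥(ad0Sub ρbar)).1 σ ((1 : DualNumber k) ⊗ₜ[k] w 1)
          - (1 : DualNumber k) ⊗ₜ[k] w 1 = t • ℓ'' →
        mat w ((c σ + ((ad0 ρbar).ρ σ m - m) : ad0 ρbar) : ↥(ad0Sub ρbar)).1 0 1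
            = TrivSqZeroExt.snd t ∧
          mat w (ρbar.ρ σ) 0 1 = TrivSqZeroExt.fst t) := by
  classical
  have hp : p.Prime := Fact.out
  have hchar : CharP k p := (CharP.charP_iff_prime_eq_zero hp).mpr hpk
  have h2 : (2 : k) ≠ 0 := by
    intro h
    have h' : ((2 : ℕ) : k) = 0 := by exact_mod_cast h
    have := (CharP.cast_eq_zero_iff k p 2).mp h'
    exact hp2 ((Nat.prime_dvd_prime_iff_eq hp Nat.prime_two).mp this)
  have hdef : IsDefOf ρbar c ρ := ⟨e, he⟩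
  obtain ⟨ℓ'', hℓ0, hℓU, hgen⟩ := tp_core p hp2 hpk ρbar P hP w hw c ρ e he hdet hfl
  -- the endomorphism `m`
  obtain ⟨m₁, hm10, hm11⟩ : ∃ m₁ : Module.End k ρbar.V,
      m₁ (w 0) = redSnd ℓ'' ∧ m₁ (w 1) = 0 := by
    refine ⟨w.constr k ![redSnd ℓ'', 0], ?_, ?_⟩
    · rw [Module.Basis.constr_basis]; rfl
    · rw [Module.Basis.constr_basis]; rfl
  obtain ⟨τ, hτ⟩ : ∃ τ : k, τ = LinearMap.trace k ρbar.V m₁ / 2 := ⟨_, rfl⟩
  have hm₀tr : LinearMap.trace k ρbar.V (m₁ - τ • (1 : Module.End k ρbar.V)) = 0 := by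
    rw [map_sub, map_smul, LinearMap.trace_one, ρbar.finrank_eq, hτ, smul_eq_mul]
    push_cast
    field_simp
    ring
  obtain ⟨m, hm⟩ : ∃ m : ad0 ρbar,
      (m : ↥(ad0Sub ρbar)).1 = m₁ - τ • (1 : Module.End k ρbar.V) :=
    ⟨(⟨m₁ - τ • (1 : Module.End k ρbar.V), LinearMap.mem_ker.mpr hm₀tr⟩ : ↥(ad0Sub ρbar)), rfl⟩
  -- the action on the line
  have hline : ∀ σ ∈ P.decompositionSubgroup ℚ, ∃ x : DualNumber k,
      defEnd ρbar (c σ : ↥(ad0Sub ρbar)).1 σ ℓ'' = x • ℓ'' := by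
    intro σ hσ
    apply hgen
    rw [← he]
    exact map_mem_coinvKer P ρ hσ hℓU
  have hquot : ∀ σ ∈ P.inertiaSubgroupIn ℚ, ∃ t : DualNumber k,
      defEnd ρbar (c σ : ↥(ad0Sub ρbar)).1 σ ((1 : DualNumber k) ⊗ₜ[k] w 1)
        - (1 : DualNumber k) ⊗ₜ[k] w 1 = t • ℓ'' := by
    intro σ hσ
    apply hgen
    rw [map_sub, ← he]
    exact sub_mem_coinvKer P ρ hσ _
  refine ⟨m, ℓ'', (w.coord 0) ∘ₗ (redSnd - m₁ ∘ₗ redFst), hℓ0, hgen, ?_, ?_, ?_, ?_, ?_⟩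
  · intro s
    show w.coord 0 (redSnd (s • ℓ'') - m₁ (redFst (s • ℓ''))) = TrivSqZeroExt.snd s
    rw [redSnd_smul, redFst_smul, hℓ0, map_smul, hm10, add_sub_cancel_left, map_smul,
      Module.Basis.coord_apply, Fermat.Agent.S59.SO.repr_self_zero_zero, smul_eq_mul, mul_one]
  · intro σ hσ
    obtain ⟨x, hx⟩ := hline σ hσ
    obtain ⟨-, -, hc0⟩ := tp_dec ρbar w c σ ℓ'' hℓ0 x hx m m₁ τ hm hm10
    show w.repr (((c σ + ((ad0 ρbar).ρ σ m - m) : ad0 ρbar) : ↥(ad0Sub ρbar)).1 (w 0)) 1 = 0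
    rw [hc0, map_smul, Finsupp.smul_apply, Fermat.Agent.S59.SO.repr_self_zero_one, smul_zero]
  · intro σ hσ
    obtain ⟨x, hx⟩ := hline σ (Fermat.Agent.S59.SO.inertia_le_decomposition hσ)
    obtain ⟨t, ht⟩ := hquot σ hσ
    obtain ⟨hc0, hc1, -, -, -⟩ :=
      tp_inert_all ρbar w c σ ℓ'' hℓ0 x hx t ht m m₁ τ hm hm10 hm11
    refine mem_W0.mpr ⟨hc0, ?_⟩
    rw [hc1, map_smul, Finsupp.smul_apply, Fermat.Agent.S59.SO.repr_self_zero_one, smul_zero]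
  · intro σ hσ a ha
    obtain ⟨x, hx⟩ := hline σ (Fermat.Agent.S59.SO.inertia_le_decomposition hσ)
    obtain ⟨t, ht⟩ := hquot σ hσ
    obtain ⟨-, -, hs, hr0, -⟩ :=
      tp_inert_all ρbar w c σ ℓ'' hℓ0 x hx t ht m m₁ τ hm hm10 hm11
    have h3 := tp_inertia_line p hpk ρbar P w hw c ρ hdef hdet hσ a ha
    rw [hr0] at h3
    have h4 : TrivSqZeroExt.fst x = (a : k) := by
      have h5 := congrArg (fun v => w.repr v 0) h3
      simpa [Fermat.Agent.S59.SO.repr_self_zero_zero] using h5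
    have h6 : x = (a : DualNumber k) := by
      apply TrivSqZeroExt.ext
      · rw [h4, TrivSqZeroExt.fst_natCast]
      · rw [hs, TrivSqZeroExt.snd_natCast]
    rw [hx, h6]
  · intro σ hσ t ht
    obtain ⟨x, hx⟩ := hline σ (Fermat.Agent.S59.SO.inertia_le_decomposition hσ)
    obtain ⟨-, hc1, -, -, hr1⟩ :=
      tp_inert_all ρbar w c σ ℓ'' hℓ0 x hx t ht m m₁ τ hm hm10 hm11
    constructor
    · rw [mat_apply, hc1, map_smul, Finsupp.smul_apply, Fermat.Agent.S59.SO.repr_self_zero_zero,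
        smul_eq_mul, mul_one]
    · rw [mat_apply, hr1, map_add, map_smul, Finsupp.add_apply, Finsupp.smul_apply,
        Fermat.Agent.S59.SO.repr_self_zero_zero, Fermat.Agent.S59.SO.repr_self_one_zero,
        smul_eq_mul, mul_one, zero_add]

end Main

end Fermat.Agent.S56.W4
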